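import Fermat.Agent.S43.GoodRed.Abs
import Fermat.Agent.DR.Conc.Galois
import Fermat.Agent.GAL.Igusa.Final
import Fermat.Agent.GAL.Igusa.RedLevel
import Fermat.Agent.S37.HeckeDiv

/-!
# S43 / GoodRed / Conc : the good-reduction isomorphism `V_m(F(M)) ≃ V_m(E κ M)` at a neat level `M`

`A` a valuation subring of `ℚ̄` over the prime `q ∤ M`, `κ` its residue field, `RMq A M q ..` the Gauss reduction of `FN M`
(DR/Conc/Level, Formulas).  `M` neat (`4 ∣ M ∨ 9 ∣ M`).

* `good_RMq`        : `Good (RMq ..)`;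
* `exists_lift_RMq` : every Kummer unit `v` of `E κ M` (exponent `p ^ e`, `p ≠ q`) is `red u = w ^ (p ^ e) * v` with `u` a Kummer
                      unit of `FN M`;
* `redM`, `redM_mk`, `redM_bijective`, `redM_eq_zero_iff`;
* `redM_galois`     : equivariance for the decomposition group.
-/

set_option autoImplicit false
set_option linter.unusedSectionVars false
set_option linter.style.haveILetI false

noncomputable section

namespace Fermat.Agent.S43.GoodRed

open ModularCurve AlgebraicCurve Fermat.Agent.S24 Fermat.Agent.GAL Fermat.Agent.GAL.Gauss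
  Fermat.Agent.GAL.RED Fermat.Agent.DR.Gal Fermat.Agent.DR.Conc Fermat.Agent.Lib.RR

variable (A : ValuationSubring Kbar) (M q : ℕ) [NeZero M] [NeZero q] (hq : q.Prime)
  (hqM : ¬ q ∣ M) (hA : A.LiesOverPrime q)

/-- the residue field. -/
abbrev kap : Type := IsLocalRing.ResidueField ↥A

theorem good_RMq (hneat : 4 ∣ M ∨ 9 ∣ M) : Good (RMq A M q hq hqM hA) :=
  ⟨RM_isCartesian A M _, goodRed_of_neat A M (natCast_M_ne_zero A M q hq hqM hA)
    Igusa.cuspUpper Igusa.cuspLower hneat⟩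

instance instAlgClosedKap : IsAlgClosed (kap A) := Igusa.isAlgClosed_residueField A

include hq hqM hA in
theorem isFF_kap : Lib.RR.IsFF (kap A) (Igusa.E (kap A) M) :=
  Igusa.isFF_E (kap A) M (natCast_M_ne_zero A M q hq hqM hA)

include hq hA in
theorem kap_pow (a : kap A) : ∃ n : ℕ, 0 < n ∧ a ^ (q ^ n) = a := by
  haveI := Hecke.charP_residueField A hq hA
  haveI : Algebra.IsAlgebraic ℚ Kbar := AlgebraicClosure.isAlgebraic ℚ
  exact S27.exists_pow_eq_self_residueField A q hq a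

/-- **Lifting of Kummer units from characteristic `q`.** -/
theorem exists_lift_RMq (hneat : 4 ∣ M ∨ 9 ∣ M) (p : ℕ) (hp : p.Prime) (hpq : p ≠ q) (e : ℕ)
    (v : kummerUnits (kap A) (Igusa.E (kap A) M) (p ^ e)) :
    ∃ (u : kummerUnits Kbar (FN M) (p ^ e)) (w : (Igusa.E (kap A) M)ˣ),
      (RMq A M q hq hqM hA).red ((u : (FN M)ˣ) : FN M) =
        ((w : (Igusa.E (kap A) M)ˣ) : Igusa.E (kap A) M) ^ (p ^ e) *
          ((v : (Igusa.E (kap A) M)ˣ) : Igusa.E (kap A) M) := by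
  haveI := Hecke.charP_residueField A hq hA
  haveI := isFF_kap A M q hq hqM hA
  exact exists_lift (good_RMq A M q hq hqM hA hneat) q hq (kap_pow A q hq hA) p hp hpq e v

/-- **The reduction map** `V_m(F(M)) → V_m(E κ M)`. -/
def redM (hneat : 4 ∣ M ∨ 9 ∣ M) (m : ℕ) [NeZero m] :
    KV Kbar (FN M) m →+ KV (kap A) (Igusa.E (kap A) M) m :=
  haveI := isFF_kap A M q hq hqM hA
  redKV (good_RMq A M q hq hqM hA hneat) m

theorem dvd_ord_red_RMq (hneat : 4 ∣ M ∨ 9 ∣ M) {m : ℕ} (u : kummerUnits Kbar (FN M) m)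
    (h : (RMq A M q hq hqM hA).red ((u : (FN M)ˣ) : FN M) ≠ 0) :
    Units.mk0 _ h ∈ kummerUnits (kap A) (Igusa.E (kap A) M) m := by
  haveI := isFF_kap A M q hq hqM hA
  exact fun Q => dvd_ord_red (good_RMq A M q hq hqM hA hneat) u.2 h Q

theorem redM_mk (hneat : 4 ∣ M ∨ 9 ∣ M) {m : ℕ} [NeZero m] (u : kummerUnits Kbar (FN M) m)
    (h : (RMq A M q hq hqM hA).red ((u : (FN M)ˣ) : FN M) ≠ 0) :
    redM A M q hq hqM hA hneat m (KV.mk u) =
      KV.mk ⟨Units.mk0 _ h, dvd_ord_red_RMq A M q hq hqM hA hneat u h⟩ := by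
  haveI := isFF_kap A M q hq hqM hA
  exact redKV_mk (good_RMq A M q hq hqM hA hneat) u h

theorem exists_rep_RMq (hneat : 4 ∣ M ∨ 9 ∣ M) {m : ℕ} [NeZero m] (x : KV Kbar (FN M) m) :
    ∃ u : kummerUnits Kbar (FN M) m, KV.mk u = x ∧
      (RMq A M q hq hqM hA).red ((u : (FN M)ˣ) : FN M) ≠ 0 := by
  haveI := isFF_kap A M q hq hqM hA
  exact exists_rep (good_RMq A M q hq hqM hA hneat) (NeZero.ne m) x

theorem redM_eq_zero_iff (hneat : 4 ∣ M ∨ 9 ∣ M) {m : ℕ} [NeZero m] (x : KV Kbar (FN M) m) :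
    redM A M q hq hqM hA hneat m x = 0 ↔ x ∈ Kone (RMq A M q hq hqM hA) m := by
  haveI := isFF_kap A M q hq hqM hA
  exact redKV_eq_zero_iff (good_RMq A M q hq hqM hA hneat) x

theorem redM_injective (hneat : 4 ∣ M ∨ 9 ∣ M) {m : ℕ} [NeZero m] (hm : ¬ q ∣ m) :
    Function.Injective (redM A M q hq hqM hA hneat m) := by
  haveI := Hecke.charP_residueField A hq hA
  haveI := isFF_kap A M q hq hqM hA
  refine redKV_injective (good_RMq A M q hq hqM hA hneat) ?_
  rwa [Ne, CharP.cast_eq_zero_iff (kap A) q]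

theorem redM_bijective (hneat : 4 ∣ M ∨ 9 ∣ M) (p : ℕ) (hp : p.Prime) (hpq : p ≠ q) (e : ℕ)
    [NeZero (p ^ e)] : Function.Bijective (redM A M q hq hqM hA hneat (p ^ e)) := by
  haveI := Hecke.charP_residueField A hq hA
  haveI := isFF_kap A M q hq hqM hA
  exact redKV_bijective (good_RMq A M q hq hqM hA hneat) q hq (kap_pow A q hq hA) p hp hpq e

/-- a class of level `M` with a representative reducing to `1` is trivial. -/
theorem eq_zero_of_mem_Kone (hneat : 4 ∣ M ∨ 9 ∣ M) {m : ℕ} [NeZero m] (hm : ¬ q ∣ m)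
    {x : KV Kbar (FN M) m} (hx : x ∈ Kone (RMq A M q hq hqM hA) m) : x = 0 := by
  apply redM_injective A M q hq hqM hA hneat hm
  rw [map_zero, redM_eq_zero_iff]
  exact hx

end Fermat.Agent.S43.GoodRed
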