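import Fermat.Agent.GAL.RED.Main
import Fermat.Agent.S15.H.Conc1.Dict
import Fermat.Agent.S27.CharP
import Fermat.Agent.DR.Gal.Defs

/-!
# S43 / GoodRed / Abs : the good-reduction isomorphism on Kummer classes (abstract form)

`R : RedData K F k Fb` a Cartesian reduction with equal genera (`Good R`), `K`, `k` algebraically closed.

* `redKV hR m : KV K F m →+ KV k Fb m`, `[u] ↦ [red u]` for a representative `u` which is a unit of `R.O` (`redKV_mk`);
* `redKV_injective`  : `m` invertible in `k`  (GAL.RED.inj);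
* `redKV_bijective`  : `m = ℓ ^ e`, `ℓ ≠ char k = q`, `k` algebraic over `𝔽_q`, `char K = 0`  (S27 in characteristic `0` and `q`);
* `exists_lift`      : every Kummer unit of `Fb` is `red u * w ^ m`, `u` a Kummer unit of `F`;
* `redKV_map`        : functoriality (pull-backs, norms, semilinear automorphisms).
-/

set_option autoImplicit false
set_option linter.unusedSectionVars false

noncomputable section

namespace Fermat.Agent.S43.GoodRed

open AlgebraicCurve Fermat.Agent.GAL Fermat.Agent.GAL.RED Fermat.Agent.Lib.RR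

variable {K F k Fb : Type*} [Field K] [Field F] [Algebra K F] [Field k] [Field Fb] [Algebra k Fb]

/-- `#V_m(F) = #Pic⁰(F)[m]` over an algebraically closed field. -/
theorem card_KV_eq [IsFF K F] [IsAlgClosed K] (m : ℕ) (hm : m ≠ 0) :
    Nat.card (KV K F m) = Nat.card (Pic0.torsion K F m) := by
  have hmem : ∀ x : KV K F m, S15.H.kvPic (K := K) (F := F) m hm x ∈ Pic0.torsion K F m := by
    intro x
    rw [Pic0.mem_torsion, natCast_zsmul]
    exact S15.H.nsmul_kvPic m hm x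
  refine Nat.card_congr (Equiv.ofBijective
    (fun x => (⟨S15.H.kvPic (K := K) (F := F) m hm x, hmem x⟩ : Pic0.torsion K F m)) ⟨?_, ?_⟩)
  · intro x y hxy
    exact S15.H.kvPic_injective m hm (congrArg Subtype.val hxy)
  · rintro ⟨y, hy⟩
    rw [Pic0.mem_torsion, natCast_zsmul] at hy
    obtain ⟨x, hx⟩ := S15.H.exists_kvPic_eq m hm y hy
    exact ⟨x, Subtype.ext hx⟩

/-- good reduction. -/
structure Good (R : RedData K F k Fb) : Prop where
  cart : R.IsCartesian
  genus : genusFF K F = genusFF k Fb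

variable [IsFF K F] [IsAlgClosed K] [IsFF k Fb] [IsAlgClosed k]

/-- the reduction of a Kummer unit is a Kummer unit. -/
theorem dvd_ord_red {R : RedData K F k Fb} (hR : Good R) {m : ℕ} {u : F}
    (hu : ∀ P : Place K F, (m : ℤ) ∣ P.ord u) (h : R.red u ≠ 0) (Q : Place k Fb) :
    (m : ℤ) ∣ Q.ord (R.red u) := by
  classical
  obtain ⟨r, hr⟩ := exists_isRedMap R hR.cart hR.genus
  set D : Divisor K F := (divOf (K := K) u).mapRange (fun n => n / (m : ℤ)) (by simp) with hD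
  have hmD : (m : ℤ) • D = divOf (K := K) u := by
    ext P
    rw [Finsupp.smul_apply, hD, Finsupp.mapRange_apply, divOf_apply, smul_eq_mul,
      Int.mul_ediv_cancel' (hu P)]
  have h1 : (m : ℤ) • Finsupp.mapDomain r D = divOf (K := k) (R.red u) := by
    rw [← mapDomain_zsmul', hmD, hr.map_divOf u h]
  have h2 := DFunLike.congr_fun h1 Q
  rw [Finsupp.smul_apply, smul_eq_mul, divOf_apply] at h2
  exact ⟨_, h2.symm⟩

/-- the class of the reduction of a Kummer unit which is a unit of `R.O`. -/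
def mkRed {R : RedData K F k Fb} (hR : Good R) {m : ℕ} (u : kummerUnits K F m)
    (h : R.red ((u : Fˣ) : F) ≠ 0) : KV k Fb m :=
  KV.mk ⟨Units.mk0 (R.red ((u : Fˣ) : F)) h, fun Q => dvd_ord_red hR u.2 h Q⟩

theorem mkRed_eq_of_mk_eq {R : RedData K F k Fb} (hR : Good R) {m : ℕ} (hm : m ≠ 0)
    (u u' : kummerUnits K F m)
    (h : R.red ((u : Fˣ) : F) ≠ 0) (h' : R.red ((u' : Fˣ) : F) ≠ 0) (e : KV.mk u = KV.mk u') :
    mkRed hR u h = mkRed hR u' h' := by
  obtain ⟨y, hy⟩ := (KV.mk_eq_mk_iff u u').1 e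
  have hy' : ((y : Fˣ) : F) ^ m * ((u' : Fˣ) : F) = ((u : Fˣ) : F) := by
    have := congrArg Units.val hy
    simpa using this
  have hu'0 : ((u' : Fˣ) : F) ≠ 0 := Units.ne_zero _
  have hpow : ((y : Fˣ) : F) ^ m = ((u : Fˣ) : F) / ((u' : Fˣ) : F) := by
    rw [← hy', mul_div_assoc, div_self hu'0, mul_one]
  have hred : R.red ((y : Fˣ) : F) ^ m = R.red ((u : Fˣ) : F) / R.red ((u' : Fˣ) : F) := by
    rw [← R.red_pow, hpow, R.red_div (R.mem_of_red_ne_zero h) h']
  have hy0 : R.red ((y : Fˣ) : F) ≠ 0 := by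
    intro h0
    rw [h0, zero_pow hm] at hred
    exact (div_ne_zero h h') hred.symm
  rw [mkRed, mkRed, KV.mk_eq_mk_iff]
  refine ⟨Units.mk0 _ hy0, ?_⟩
  apply Units.ext
  simp only [Units.val_mul, Units.val_pow_eq_pow_val, Units.val_mk0]
  rw [hred, div_mul_cancel₀ _ h']

theorem mkRed_mul {R : RedData K F k Fb} (hR : Good R) {m : ℕ} (u u' : kummerUnits K F m)
    (h : R.red ((u : Fˣ) : F) ≠ 0) (h' : R.red ((u' : Fˣ) : F) ≠ 0)
    (h'' : R.red (((u * u' : kummerUnits K F m) : Fˣ) : F) ≠ 0) :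
    mkRed hR (u * u') h'' = mkRed hR u h + mkRed hR u' h' := by
  rw [mkRed, mkRed, mkRed, ← KV.mk_mul]
  congr 1
  apply Subtype.ext
  apply Units.ext
  simp only [Subgroup.coe_mul, Units.val_mul, Units.val_mk0]
  exact R.red_mul (R.mem_of_red_ne_zero h) (R.mem_of_red_ne_zero h')

/-- every class has a representative which is a unit of `R.O`. -/
theorem exists_rep {R : RedData K F k Fb} (hR : Good R) {m : ℕ} (hm : m ≠ 0) (x : KV K F m) :
    ∃ u : kummerUnits K F m, KV.mk u = x ∧ R.red ((u : Fˣ) : F) ≠ 0 := by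
  obtain ⟨u0, rfl⟩ := KV.mk_surjective x
  obtain ⟨c, hc0, hc⟩ := hR.cart.exists_scale (f := ((u0 : Fˣ) : F)) (Units.ne_zero _)
  obtain ⟨d, hd⟩ := IsAlgClosed.exists_pow_nat_eq c (Nat.pos_of_ne_zero hm)
  have hd0 : d ≠ 0 := by
    rintro rfl
    rw [zero_pow hm] at hd
    exact hc0 hd.symm
  have hdF : algebraMap K F d ≠ 0 := by simpa using hd0
  set y : Fˣ := Units.mk0 _ hdF with hy
  refine ⟨⟨y ^ m, pow_mem_kummerUnits m y⟩ * u0, ?_, ?_⟩
  · rw [KV.mk_mul]
    have : KV.mk (⟨y ^ m, pow_mem_kummerUnits m y⟩ : kummerUnits K F m) = 0 :=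
      (KV.mk_eq_zero_iff _).2 ⟨y, rfl⟩
    rw [this, zero_add]
  · have : ((((⟨y ^ m, pow_mem_kummerUnits m y⟩ : kummerUnits K F m) * u0 : kummerUnits K F m) : Fˣ) : F)
        = algebraMap K F c * ((u0 : Fˣ) : F) := by
      simp only [Subgroup.coe_mul, Units.val_mul, Units.val_pow_eq_pow_val, hy, Units.val_mk0]
      rw [← map_pow, hd]
    rw [this]
    exact hc

/-- **The reduction map on Kummer classes.** -/
def redKV {R : RedData K F k Fb} (hR : Good R) (m : ℕ) [NeZero m] : KV K F m →+ KV k Fb m :=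
  AddMonoidHom.mk' (fun x => mkRed hR (exists_rep hR (NeZero.ne m) x).choose
      (exists_rep hR (NeZero.ne m) x).choose_spec.2) (by
    intro x y
    have hx := (exists_rep hR (NeZero.ne m) x).choose_spec
    have hy := (exists_rep hR (NeZero.ne m) y).choose_spec
    have hxy := (exists_rep hR (NeZero.ne m) (x + y)).choose_spec
    have h'' : R.red ((((exists_rep hR (NeZero.ne m) x).choose *
        (exists_rep hR (NeZero.ne m) y).choose : kummerUnits K F m) : Fˣ) : F) ≠ 0 := by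
      simp only [Subgroup.coe_mul, Units.val_mul]
      exact R.red_mul_ne_zero hx.2 hy.2
    rw [← mkRed_mul hR _ _ hx.2 hy.2 h'']
    apply mkRed_eq_of_mk_eq hR (NeZero.ne m)
    rw [hxy.1, KV.mk_mul, hx.1, hy.1])

theorem redKV_mk {R : RedData K F k Fb} (hR : Good R) {m : ℕ} [NeZero m] (u : kummerUnits K F m)
    (h : R.red ((u : Fˣ) : F) ≠ 0) : redKV hR m (KV.mk u) = mkRed hR u h := by
  show mkRed hR _ _ = _
  exact mkRed_eq_of_mk_eq hR (NeZero.ne m) _ _ _ _
    (exists_rep hR (NeZero.ne m) (KV.mk u)).choose_spec.1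

theorem redKV_mk' {R : RedData K F k Fb} (hR : Good R) {m : ℕ} [NeZero m] (u : kummerUnits K F m)
    (h : R.red ((u : Fˣ) : F) ≠ 0) : redKV hR m (KV.mk u) =
      KV.mk ⟨Units.mk0 (R.red ((u : Fˣ) : F)) h, fun Q => dvd_ord_red hR u.2 h Q⟩ :=
  redKV_mk hR u h

/-- the kernel of `redKV` : classes with a representative reducing to `1`. -/
theorem redKV_eq_zero_iff {R : RedData K F k Fb} (hR : Good R) {m : ℕ} [NeZero m] (x : KV K F m) :
    redKV hR m x = 0 ↔ x ∈ DR.Gal.Kone R m := by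
  constructor
  · intro hx
    obtain ⟨u, rfl, hu⟩ := exists_rep hR (NeZero.ne m) x
    rw [redKV_mk hR u hu, mkRed, KV.mk_eq_zero_iff] at hx
    obtain ⟨y, hy⟩ := hx
    have hy' : ((y : Fbˣ) : Fb) ^ m = R.red ((u : Fˣ) : F) := by
      have := congrArg Units.val hy
      simpa using this
    obtain ⟨w, hwO, hw⟩ := R.exists_lift ((y : Fbˣ) : Fb)
    have hwne : R.red w ≠ 0 := by rw [hw]; exact Units.ne_zero _
    have hw0 : w ≠ 0 := R.ne_zero_of_red_ne_zero hwne
    set W : Fˣ := Units.mk0 w hw0 with hW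
    refine ⟨u * (⟨W ^ m, pow_mem_kummerUnits m W⟩ : kummerUnits K F m)⁻¹, ?_, ?_⟩
    · rw [KV.mk_mul, KV.mk_inv]
      have : KV.mk (⟨W ^ m, pow_mem_kummerUnits m W⟩ : kummerUnits K F m) = 0 :=
        (KV.mk_eq_zero_iff _).2 ⟨W, rfl⟩
      rw [this, neg_zero, add_zero]
    · have : (((u * (⟨W ^ m, pow_mem_kummerUnits m W⟩ : kummerUnits K F m)⁻¹ :
          kummerUnits K F m) : Fˣ) : F) = ((u : Fˣ) : F) / w ^ m := by
        simp only [Subgroup.coe_mul, Subgroup.coe_inv, Units.val_mul, Units.val_inv_eq_inv_val,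
          Units.val_pow_eq_pow_val, hW, Units.val_mk0]
        rw [div_eq_mul_inv]
      rw [this, R.red_div (R.mem_of_red_ne_zero hu) (by rw [R.red_pow]; exact pow_ne_zero _ hwne),
        R.red_pow, hw, hy', div_self hu]
  · rintro ⟨f, rfl, hf⟩
    have hne : R.red ((f : Fˣ) : F) ≠ 0 := by rw [hf]; exact one_ne_zero
    rw [redKV_mk hR f hne, mkRed, KV.mk_eq_zero_iff]
    refine ⟨1, ?_⟩
    apply Units.ext
    simp [hf]

/-- **Injectivity** (`m` invertible in `k`). -/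
theorem redKV_injective {R : RedData K F k Fb} (hR : Good R) {m : ℕ} [NeZero m]
    (hm : (m : k) ≠ 0) : Function.Injective (redKV hR m) := by
  rw [injective_iff_map_eq_zero]
  intro x hx
  obtain ⟨u, rfl, hu⟩ := exists_rep hR (NeZero.ne m) x
  rw [redKV_mk hR u hu, mkRed, KV.mk_eq_zero_iff] at hx
  obtain ⟨y, hy⟩ := hx
  have hy' : R.red ((u : Fˣ) : F) = ((y : Fbˣ) : Fb) ^ m := by
    have := congrArg Units.val hy
    simpa using this.symm
  obtain ⟨w, hw⟩ := inj R hR.cart hR.genus m hm ((u : Fˣ) : F) u.2 _ (Units.ne_zero y) hy'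
  have hw0 : w ≠ 0 := by
    rintro rfl
    rw [zero_pow (NeZero.ne m)] at hw
    exact (Units.ne_zero _) hw
  rw [KV.mk_eq_zero_iff]
  exact ⟨Units.mk0 w hw0, Units.ext (by simpa using hw.symm)⟩

/-- **Bijectivity**: `m = ℓ ^ e`, `ℓ ≠ q = char k`, `k` algebraic over `𝔽_q`, `char K = 0`. -/
theorem redKV_bijective {R : RedData K F k Fb} (hR : Good R) [CharZero K] (q : ℕ) (hq : q.Prime)
    [CharP k q] (hk : ∀ a : k, ∃ n : ℕ, 0 < n ∧ a ^ (q ^ n) = a)
    (ℓ : ℕ) (hℓ : ℓ.Prime) (hne : ℓ ≠ q) (e : ℕ) [NeZero (ℓ ^ e)] :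
    Function.Bijective (redKV hR (ℓ ^ e)) := by
  have hm : ((ℓ ^ e : ℕ) : k) ≠ 0 := by
    rw [Nat.cast_pow]
    apply pow_ne_zero
    intro h0
    rw [CharP.cast_eq_zero_iff k q] at h0
    exact hne ((Nat.prime_dvd_prime_iff_eq hq hℓ).1 h0).symm
  have h1 : Nat.card (KV K F (ℓ ^ e)) = ℓ ^ (2 * genusFF K F * e) := by
    rw [card_KV_eq _ (NeZero.ne _)]
    exact S27.card_torsion_charZero K F ℓ hℓ e
  have h2 : Nat.card (KV k Fb (ℓ ^ e)) = ℓ ^ (2 * genusFF k Fb * e) := by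
    rw [card_KV_eq _ (NeZero.ne _)]
    exact S27.card_torsion_charP q hq k Fb hk ℓ hℓ hne e
  have hfin : Finite (KV k Fb (ℓ ^ e)) :=
    Nat.finite_of_card_ne_zero (by rw [h2]; exact (pow_pos hℓ.pos _).ne')
  refine (Function.Injective.bijective_of_nat_card_le (redKV_injective hR hm) ?_)
  rw [h1, h2, hR.genus]

/-- **Lifting**: every Kummer unit of `Fb` is, up to an `m`-th power, the reduction of a Kummer unit of `F`. -/
theorem exists_lift {R : RedData K F k Fb} (hR : Good R) [CharZero K] (q : ℕ) (hq : q.Prime)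
    [CharP k q] (hk : ∀ a : k, ∃ n : ℕ, 0 < n ∧ a ^ (q ^ n) = a)
    (ℓ : ℕ) (hℓ : ℓ.Prime) (hne : ℓ ≠ q) (e : ℕ) (v : kummerUnits k Fb (ℓ ^ e)) :
    ∃ (u : kummerUnits K F (ℓ ^ e)) (w : Fbˣ),
      R.red ((u : Fˣ) : F) = ((w : Fbˣ) : Fb) ^ (ℓ ^ e) * ((v : Fbˣ) : Fb) := by
  have : NeZero (ℓ ^ e) := ⟨(pow_pos hℓ.pos e).ne'⟩
  obtain ⟨x, hx⟩ := (redKV_bijective hR q hq hk ℓ hℓ hne e).2 (KV.mk v)
  obtain ⟨u, rfl, hu⟩ := exists_rep hR (NeZero.ne _) x
  rw [redKV_mk hR u hu, mkRed, KV.mk_eq_mk_iff] at hx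
  obtain ⟨w, hw⟩ := hx
  refine ⟨u, w, ?_⟩
  have := congrArg Units.val hw
  simpa using this.symm

section functoriality

variable {K' F' k' Fb' : Type*} [Field K'] [Field F'] [Algebra K' F'] [Field k'] [Field Fb']
  [Algebra k' Fb'] [IsFF K' F'] [IsAlgClosed K'] [IsFF k' Fb'] [IsAlgClosed k']

/-- **Functoriality.**  `Φ`, `Φb` multiplicative maps preserving Kummer units, compatible with the reductions on the
Kummer units which are units of `R.O`. -/
theorem redKV_map {R : RedData K F k Fb} (hR : Good R) {R' : RedData K' F' k' Fb'} (hR' : Good R')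
    {m : ℕ} [NeZero m] (Φ : Fˣ →* F'ˣ) (hΦ : ∀ u ∈ kummerUnits K F m, Φ u ∈ kummerUnits K' F' m)
    (Φb : Fbˣ →* Fb'ˣ) (hΦb : ∀ u ∈ kummerUnits k Fb m, Φb u ∈ kummerUnits k' Fb' m)
    (h : ∀ u ∈ kummerUnits K F m, ∀ hu : R.red ((u : Fˣ) : F) ≠ 0,
      R'.red ((Φ u : F'ˣ) : F') = ((Φb (Units.mk0 _ hu) : Fb'ˣ) : Fb'))
    (x : KV K F m) : redKV hR' m (KV.map Φ hΦ x) = KV.map Φb hΦb (redKV hR m x) := by
  obtain ⟨u, rfl, hu⟩ := exists_rep hR (NeZero.ne m) x
  have h1 := h u u.2 hu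
  have hne : R'.red (((⟨Φ u, hΦ u u.2⟩ : kummerUnits K' F' m) : F'ˣ) : F') ≠ 0 := by
    show R'.red ((Φ u : F'ˣ) : F') ≠ 0
    rw [h1]
    exact Units.ne_zero _
  rw [KV.map_mk, redKV_mk hR' _ hne, redKV_mk hR u hu, mkRed, mkRed, KV.map_mk]
  congr 1
  apply Subtype.ext
  apply Units.ext
  exact h1

end functoriality

/-- Equivariance for semilinear automorphisms compatible with the reduction. -/
theorem redKV_smul {R : RedData K F k Fb} (hR : Good R) {m : ℕ} [NeZero m]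
    {g : SemilinearAut K F} {gb : Fb ≃+* Fb} (hg : DR.Gal.Compat R g gb)
    (hgb : ∀ u ∈ kummerUnits k Fb m, Units.map (gb : Fb →* Fb) u ∈ kummerUnits k Fb m)
    (x : KV K F m) :
    redKV hR m (g • x) = KV.map (Units.map (gb : Fb →* Fb)) hgb (redKV hR m x) := by
  rw [KV.semilinear_smul_def]
  refine redKV_map hR hR _ _ _ hgb ?_ x
  intro u _ hu
  rw [coe_semilinearUnits, hg.red _ (R.mem_of_red_ne_zero hu)]
  rfl

end Fermat.Agent.S43.GoodRed
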