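import Fermat.Agent.S43.GoodRed.Conc
import Fermat.Agent.MR.Eis.RedHecke
import Fermat.Agent.MR.Glue.Defs
import Fermat.Agent.GAL.Hecke.HeckeBasic

/-!
# S43 / GoodRed / Hecke : the good reduction at a level `M` prime to `q` commutes with the Hecke operators; `RedIsoC`

* `red_heckeNorm_RM` : `RM.red (heckeNorm Kbar M l u) = TBar κ M l (RM.red u)` for `u ∈ RM.O`, `l ∤ M q` prime;
* `redIsoC` : (neat `M`) if the eigensystem `a` does not occur in `V_p(F(M))` (`eigenKV M p S a = ⊥`, `q ∈ S`), then every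
  `v ≠ 0` in `E κ M` with all orders divisible by `p` and `T̄_l v = v ^ (a l) * h ^ p` for all good `l` is a `p`-th power.
-/

set_option autoImplicit false
set_option linter.unusedSectionVars false
set_option linter.style.haveILetI false

noncomputable section

namespace Fermat.Agent.S43.GoodRed

open ModularCurve AlgebraicCurve Fermat.Agent.S24 Fermat.Agent.GAL Fermat.Agent.GAL.Gauss
  Fermat.Agent.GAL.RED Fermat.Agent.GAL.Hecke Fermat.Agent.GAL.Igusa Fermat.Agent.DR.Gal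
  Fermat.Agent.DR.Conc Fermat.Agent.MR.Eis Fermat.Agent.MR.Glue

variable (A : ValuationSubring Kbar) (M q : ℕ) [NeZero M] [NeZero q] (hq : q.Prime)
  (hqM : ¬ q ∣ M) (hA : A.LiesOverPrime q)
variable (l : ℕ) [NeZero l] (hl : l.Prime) (hlMq : ¬ l ∣ M * q)

theorem RM_mem_alpha (hM) (hMl) (y : FN M) (hy : y ∈ (RM A M hM).O) :
    heckeAlphaBar Kbar M l y ∈ (RM A (M * l) hMl).O := by
  rw [mem_RM_O_iff, coe_heckeAlphaBar]
  exact (mem_RM_O_iff A M hM y).1 hy

theorem RM_red_alpha (hM) (hMl) (y : FN M) (hy : y ∈ (RM A M hM).O) :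
    (RM A (M * l) hMl).red (heckeAlphaBar Kbar M l y) =
      (towerAlgebra (kap A) (dvd_mul_right M l)).algebraMap ((RM A M hM).red y) := by
  apply Subtype.ext
  have hy0 : (y : LaurentSeries Kbar) ∈ gRing A := (mem_RM_O_iff A M hM y).1 hy
  have hy' : ((heckeAlphaBar Kbar M l y : FN (M * l)) : LaurentSeries Kbar) ∈ gRing A := by
    rw [coe_heckeAlphaBar]; exact hy0
  have e : (⟨((heckeAlphaBar Kbar M l y : FN (M * l)) : LaurentSeries Kbar), hy'⟩ :
      ↥(gRing A)) = ⟨(y : LaurentSeries Kbar), hy0⟩ :=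
    mk_gRing_congr A _ _ _ _ (coe_heckeAlphaBar M l y)
  rw [coe_RM_red A (M * l) hMl _ hy', coe_towerAlgebraMap, coe_RM_red A M hM y hy0, e]

theorem RM_mem_beta (hM) (u : FN M) (hu : u ∈ (RM A M hM).O) :
    ((heckeBetaBar Kbar M l u : FN (M * l)) : LaurentSeries Kbar) ∈ gRing A := by
  have hu' : (u : LaurentSeries Kbar) ∈ gRing A := (mem_RM_O_iff A M hM u).1 hu
  rw [coe_heckeBetaBar]
  exact qExpand_mem_gRing A l hu'

theorem RM_red_beta (hM) (hMl) (u : FN M) (hu : u ∈ (RM A M hM).O) :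
    (RM A (M * l) hMl).red (heckeBetaBar Kbar M l u) =
      betaBar (kap A) M l ((RM A M hM).red u) := by
  have hu' : (u : LaurentSeries Kbar) ∈ gRing A := (mem_RM_O_iff A M hM u).1 hu
  apply Subtype.ext
  rw [coe_RM_red A (M * l) hMl _ (RM_mem_beta A M l hM u hu), coe_betaBar,
    coe_RM_red A M hM u hu', ← gRes_qExpand A l hu']
  exact congrArg (gRes A) (mk_gRing_congr A _ _ _ _ (coe_heckeBetaBar M l u))

include hl hlMq in
/-- **The good reduction commutes with `T_l`.** -/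
theorem red_heckeNorm_RM (u : FN M) (hu : u ∈ (RMq A M q hq hqM hA).O) :
    heckeNorm Kbar M l u ∈ (RMq A M q hq hqM hA).O ∧
      (RMq A M q hq hqM hA).red (heckeNorm Kbar M l u) =
        TBar (kap A) M l ((RMq A M q hq hqM hA).red u) := by
  have hlM : ¬ l ∣ M := not_l_dvd_M M q l hlMq
  have hMl := natCast_Ml_ne_zero A M q hq hqM hA l hl hlMq
  have hM := natCast_M_ne_zero A M q hq hqM hA
  letI := algebraAlong (heckeAlphaBar Kbar M l)
  haveI := isScalarTower_along (heckeAlphaBar Kbar M l)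
  haveI : FiniteDimensional (FN M) (FN (M * l)) := DegreeAlpha.finiteDimensional_alpha M l hl hlM
  letI := towerAlgebra (kap A) (dvd_mul_right M l)
  obtain ⟨-, -, h3, -, -⟩ := tower_spec (kap A) (dvd_mul_right M l) hMl
  have key := red_norm_single (RM A M hM) (RM A (M * l) hMl)
    (RM_mem_alpha A M l hM hMl) (RM_red_alpha A M l hM hMl)
    ((finrank_tower_l A M q hq hqM hA l hl hlMq).trans (DegreeAlpha.finrank_alpha M l hl hlM).symm)
    (heckeBetaBar Kbar M l u) ((mem_RM_O_iff A (M * l) hMl _).2 (RM_mem_beta A M l hM u hu))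
  refine ⟨key.1, ?_⟩
  rw [TBar_apply, ← RM_red_beta A M l hM hMl u hu]
  exact key.2

theorem KV_mk_zpow {K F : Type*} [Field K] [Field F] [Algebra K F] {m : ℕ}
    (u : kummerUnits K F m) (n : ℤ) : KV.mk (u ^ n) = n • KV.mk u := rfl

/-- `exists_lift_RMq` with a free exponent. -/
theorem exists_lift_RMq' (hneat : 4 ∣ M ∨ 9 ∣ M) (p : ℕ) (hp : p.Prime) (hpq : p ≠ q) (e m : ℕ)
    (hm : m = p ^ e) (v : kummerUnits (kap A) (Igusa.E (kap A) M) m) :
    ∃ (u : kummerUnits Kbar (FN M) m) (w : (Igusa.E (kap A) M)ˣ),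
      (RMq A M q hq hqM hA).red ((u : (FN M)ˣ) : FN M) =
        ((w : (Igusa.E (kap A) M)ˣ) : Igusa.E (kap A) M) ^ m *
          ((v : (Igusa.E (kap A) M)ˣ) : Igusa.E (kap A) M) := by
  subst hm
  exact exists_lift_RMq A M q hq hqM hA hneat p hp hpq e v

include hq hqM hA in
/-- **RedIsoC** (exponent `m = p ^ e`): an eigenclass of `V_m(E κ M)` whose eigensystem does not occur in `V_m(F(M))` is trivial. -/
theorem redIsoC_pow (hneat : 4 ∣ M ∨ 9 ∣ M) (p : ℕ) (hp : p.Prime) (hpq : p ≠ q) (e m : ℕ)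
    (hm : m = p ^ e) (S : Finset ℕ) (hqS : q ∈ S) (a : ℕ → ℤ) (h0 : eigenKV M m S a = ⊥)
    (v : Igusa.E (kap A) M) (hv : v ≠ 0)
    (hdiv : ∀ P : Place (kap A) (Igusa.E (kap A) M), (m : ℤ) ∣ P.ord v)
    (hT : ∀ (l : ℕ) [NeZero l], l.Prime → ¬ l ∣ M → l ∉ S →
      ∃ h : Igusa.E (kap A) M, h ≠ 0 ∧ TBar (kap A) M l v = v ^ (a l) * h ^ m) :
    ∃ w : Igusa.E (kap A) M, v = w ^ m := by
  haveI : NeZero m := ⟨by rw [hm]; exact (pow_pos hp.pos e).ne'⟩
  have hqm : ¬ q ∣ m := by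
    rw [hm]
    intro h
    exact hpq ((Nat.prime_dvd_prime_iff_eq hq hp).1 (hq.dvd_of_dvd_pow h)).symm
  obtain ⟨u, w, huw⟩ := exists_lift_RMq' A M q hq hqM hA hneat p hp hpq e m hm
    ⟨Units.mk0 v hv, hdiv⟩
  rw [Units.val_mk0] at huw
  have hw0 : ((w : (Igusa.E (kap A) M)ˣ) : Igusa.E (kap A) M) ≠ 0 := Units.ne_zero w
  have hune : (RMq A M q hq hqM hA).red ((u : (FN M)ˣ) : FN M) ≠ 0 := by
    rw [huw]
    exact mul_ne_zero (pow_ne_zero _ hw0) hv
  have hy : KV.mk u ∈ eigenKV M m S a := by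
    intro l _ hl hlM hlS
    have hlq : l ≠ q := fun h => hlS (h ▸ hqS)
    have hlMq : ¬ l ∣ M * q := by
      intro h
      rcases (Nat.Prime.dvd_mul hl).1 h with h | h
      · exact hlM h
      · exact hlq ((Nat.prime_dvd_prime_iff_eq hl hq).1 h)
    obtain ⟨h, hh0, hTv⟩ := hT l hl hlM hlS
    obtain ⟨-, hred⟩ := red_heckeNorm_RM A M q hq hqM hA l hl hlMq ((u : (FN M)ˣ) : FN M)
      ((RMq A M q hq hqM hA).mem_of_red_ne_zero hune)
    have hTw0 : TBar (kap A) M l ((w : (Igusa.E (kap A) M)ˣ) : Igusa.E (kap A) M) ≠ 0 := by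
      have := (Units.map (TBar (kap A) M l) w).ne_zero
      simpa using this
    have hval : (RMq A M q hq hqM hA).red (heckeNorm Kbar M l ((u : (FN M)ˣ) : FN M)) =
        (TBar (kap A) M l ((w : (Igusa.E (kap A) M)ˣ) : Igusa.E (kap A) M) * h *
          (((w : (Igusa.E (kap A) M)ˣ) : Igusa.E (kap A) M) ^ (a l))⁻¹) ^ m *
          ((RMq A M q hq hqM hA).red ((u : (FN M)ˣ) : FN M)) ^ (a l) := by
      rw [hred, huw, map_mul, map_pow, hTv, mul_zpow, mul_pow, mul_pow, inv_pow,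
        ← zpow_natCast (_ ^ (a l)) m, ← zpow_mul, ← zpow_natCast _ m, ← zpow_natCast _ m,
        ← zpow_natCast _ m, ← zpow_mul, mul_comm (a l) (m : ℤ)]
      have hz : (((w : (Igusa.E (kap A) M)ˣ) : Igusa.E (kap A) M) ^ ((m : ℤ) * a l)) ≠ 0 :=
        zpow_ne_zero _ hw0
      field_simp
    have hne' : (RMq A M q hq hqM hA).red
        (((⟨Units.map (heckeNorm Kbar M l) u, heckeNormPreserves M l m u u.2⟩ :
          kummerUnits Kbar (FN M) m) : (FN M)ˣ) : FN M) ≠ 0 := by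
      show (RMq A M q hq hqM hA).red (heckeNorm Kbar M l ((u : (FN M)ˣ) : FN M)) ≠ 0
      rw [hval]
      exact mul_ne_zero (pow_ne_zero _ (mul_ne_zero (mul_ne_zero hTw0 hh0)
        (inv_ne_zero (zpow_ne_zero _ hw0)))) (zpow_ne_zero _ hune)
    apply redM_injective A M q hq hqM hA hneat hqm
    rw [heckeT_mk (heckeNormPreserves M l m) u, map_zsmul, redM_mk A M q hq hqM hA hneat _ hne',
      redM_mk A M q hq hqM hA hneat u hune, ← KV_mk_zpow, KV.mk_eq_mk_iff]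
    refine ⟨Units.mk0 _ (mul_ne_zero (mul_ne_zero hTw0 hh0)
        (inv_ne_zero (zpow_ne_zero (a l) hw0))), ?_⟩
    apply Units.ext
    simp only [Units.val_mul, Units.val_pow_eq_pow_val, Units.val_mk0, Subgroup.coe_zpow,
      Units.val_zpow_eq_zpow_val]
    exact hval.symm
  rw [h0, AddSubgroup.mem_bot, KV.mk_eq_zero_iff] at hy
  obtain ⟨y, hy⟩ := hy
  have hy' : ((y : (FN M)ˣ) : FN M) ^ m = ((u : (FN M)ˣ) : FN M) := by
    have := congrArg Units.val hy
    simpa using this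
  refine ⟨(RMq A M q hq hqM hA).red ((y : (FN M)ˣ) : FN M) /
    ((w : (Igusa.E (kap A) M)ˣ) : Igusa.E (kap A) M), ?_⟩
  rw [div_pow, ← (RMq A M q hq hqM hA).red_pow, hy', huw, mul_div_cancel_left₀ _ (pow_ne_zero _ hw0)]

include hq hqM hA in
/-- **RedIsoC** (prime exponent; the shape asked by GA/Core). -/
theorem redIsoC (hneat : 4 ∣ M ∨ 9 ∣ M) (p : ℕ) (hp : p.Prime) (hpq : p ≠ q)
    (S : Finset ℕ) (hqS : q ∈ S) (a : ℕ → ℤ) (h0 : eigenKV M p S a = ⊥)
    (v : Igusa.E (kap A) M) (hv : v ≠ 0)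
    (hdiv : ∀ P : Place (kap A) (Igusa.E (kap A) M), (p : ℤ) ∣ P.ord v)
    (hT : ∀ (l : ℕ) [NeZero l], l.Prime → ¬ l ∣ M → l ∉ S →
      ∃ h : Igusa.E (kap A) M, h ≠ 0 ∧ TBar (kap A) M l v = v ^ (a l) * h ^ p) :
    ∃ w : Igusa.E (kap A) M, v = w ^ p :=
  redIsoC_pow A M q hq hqM hA hneat p hp hpq 1 p (pow_one p).symm S hqS a h0 v hv hdiv hT

end Fermat.Agent.S43.GoodRed
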